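/-
S26 / block G (Theorem B, pure field theory, Mathlib only; architect helper187).
LEAF G-12.  If `V2 ^ (m0 + 1) = V1 * V2 ^ m0` then `v / v0` is integral over `ratioField V1` for `v ∈ V2`.
Proof.  `E1 := ratioField V1`, `N := Submodule.span E1 ((fun p => p / v0 ^ m0) '' (V2 ^ m0 : Set Ω))`.
`N ≠ ⊥` (contains `1 = v0 ^ m0 / v0 ^ m0`), `N.FG` (it is spanned over `E1` by the image of a finite `K`-spanning set of
`V2 ^ m0`, `finiteDimensional_pow`), and `(v / v0) • N ⊆ N`: by `Submodule.span_induction` it suffices to treat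
`p / v0 ^ m0`; `v * p ∈ V2 ^ (m0 + 1) = V1 * V2 ^ m0`, `Submodule.mul_induction_on`:
`(v1 * p') / v0 ^ (m0 + 1) = (v1 / v0) • (p' / v0 ^ m0)` with `v1 / v0 ∈ E1`.
Conclude by `isIntegral_of_smul_mem_submodule` (Mathlib/RingTheory/IntegralClosure/Algebra/Basic.lean).
-/
import Fermat.Agent.S26.G.Hilb.Fin

set_option autoImplicit false

universe u

namespace Fermat.Agent.S26.G

open Module IntermediateField

variable {K Ω : Type u} [Field K] [Field Ω] [Algebra K Ω]

theorem isIntegral_div (V1 V2 : Submodule K Ω) [FiniteDimensional K V2] (hle : V1 ≤ V2) {v0 : Ω}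
    (hv0 : v0 ∈ V1) (h0 : v0 ≠ 0) (m0 : ℕ) (hst : V2 ^ (m0 + 1) = V1 * V2 ^ m0) {v : Ω}
    (hv : v ∈ V2) : IsIntegral (ratioField V1) (v / v0) := by
  -- (no need to divide by `v0 ^ m0`: we use the `E1`-span of `V2 ^ m0` itself)
  set N : Submodule (ratioField V1) Ω := Submodule.span (ratioField V1) ((V2 ^ m0 : Submodule K Ω) : Set Ω) with hN
  have hsub : ∀ p ∈ V2 ^ m0, p ∈ N := fun p hp => Submodule.subset_span hp
  -- `N ≠ ⊥`
  have hne : N ≠ ⊥ := by
    intro hbot
    have h1 : v0 ^ m0 ∈ N := hsub _ (Submodule.pow_mem_pow V2 (hle hv0) m0)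
    rw [hbot, Submodule.mem_bot] at h1
    exact pow_ne_zero m0 h0 h1
  -- `N` is finitely generated
  have hfg : N.FG := by
    obtain ⟨S, hS⟩ : (V2 ^ m0).FG :=
      (Module.Finite.iff_fg.1 (inferInstance : Module.Finite K V2)).pow m0
    refine ⟨S, ?_⟩
    rw [hN, ← hS, Submodule.span_span_of_tower]
  -- elements of `V1 * V2 ^ m0` divided by `v0`
  have hdiv : ∀ z ∈ V1 * V2 ^ m0, z / v0 ∈ N := by
    intro z hz
    induction hz using Submodule.mul_induction_on' with
    | mem_mul_mem v1 hv1 p hp =>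
      have h1 : v1 * p / v0 = (⟨v1 / v0, div_mem_ratioField_of_mem hv1 hv0⟩ : ratioField V1) • p := by
        rw [IntermediateField.smul_def, smul_eq_mul]
        show v1 * p / v0 = v1 / v0 * p
        ring
      rw [h1]
      exact N.smul_mem _ (hsub p hp)
    | add x _ y _ hx hy =>
      rw [add_div]
      exact N.add_mem hx hy
  -- stability
  have hstab : ∀ n ∈ N, (v / v0) • n ∈ N := by
    intro n hn
    induction hn using Submodule.span_induction with
    | mem p hp =>
      have h1 : v * p ∈ V1 * V2 ^ m0 := by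
        rw [← hst, pow_succ']
        exact Submodule.mul_mem_mul hv hp
      have h2 : (v / v0) • p = v * p / v0 := by
        rw [smul_eq_mul]
        ring
      rw [h2]
      exact hdiv _ h1
    | zero =>
      rw [smul_zero]
      exact N.zero_mem
    | add x y _ _ hx hy =>
      rw [smul_add]
      exact N.add_mem hx hy
    | smul a x _ hx =>
      rw [smul_comm]
      exact N.smul_mem a hx
  exact isIntegral_of_smul_mem_submodule N hne hfg (v / v0) hstab

end Fermat.Agent.S26.G
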