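/-
S26 / block G (Theorem B, pure field theory, Mathlib only; architect helper187).
ASSEMBLY G-14.  `ratioField V2` is finite over `ratioField V1`.
Proof.  `V2 = span K s`, `s` a finite set (`Module.Finite.fg_top`/`Submodule.fg_iff_finiteDimensional`);
`S := (fun x => x / v0) '' s`; `ratioField_span_eq_adjoin_div`, `isIntegral_div`, `relfinrank_ne_zero_of_isIntegral`.
-/
import Fermat.Agent.S26.G.Ratio.Func
import Fermat.Agent.S26.G.Ratio.Adjoin
import Fermat.Agent.S26.G.Cmp.Integral
import Fermat.Agent.S26.G.Cmp.FinGen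

set_option autoImplicit false

universe u

namespace Fermat.Agent.S26.G

open Module IntermediateField

variable {K Ω : Type u} [Field K] [Field Ω] [Algebra K Ω]

theorem relfinrank_ratioField_ne_zero (V1 V2 : Submodule K Ω) [FiniteDimensional K V2]
    (hle : V1 ≤ V2) {v0 : Ω} (hv0 : v0 ∈ V1) (h0 : v0 ≠ 0) (m0 : ℕ)
    (hst : V2 ^ (m0 + 1) = V1 * V2 ^ m0) :
    IntermediateField.relfinrank (ratioField V1) (ratioField V2) ≠ 0 := by
  obtain ⟨s, hs⟩ : V2.FG := (Submodule.fg_iff_finiteDimensional V2).2 inferInstance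
  have hv0' : v0 ∈ Submodule.span K (s : Set Ω) := by
    rw [hs]
    exact hle hv0
  refine relfinrank_ne_zero_of_isIntegral (ratioField V1) (ratioField V2) (ratioField_mono hle)
    ((fun x => x / v0) '' (s : Set Ω)) (s.finite_toSet.image _) ?_ ?_
  · rintro _ ⟨x, hx, rfl⟩
    refine isIntegral_div V1 V2 hle hv0 h0 m0 hst ?_
    rw [← hs]
    exact Submodule.subset_span hx
  · have h := ratioField_span_eq_adjoin_div (K := K) (s : Set Ω) hv0' h0
    rw [hs] at h
    rw [h]
    exact le_sup_right

end Fermat.Agent.S26.G
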