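/-
S26 / block G (Theorem B, pure field theory, Mathlib only; architect helper187).
LEAF G-16.  `ρ H1 j ≤ H2 (j + a)`.
Proof.  `β` from `exists_relBasis`; `exists_common_denom V2 β` gives `a`, `q ∈ V2 ^ a`, `q ≠ 0`, `q * β i ∈ V2 ^ a`.
`U := span {(v0 ^ j)⁻¹} * V1 ^ j ⊆ ratioField V1` (`div_pow_mem_ratioField`), `finrank K U = H1 j`.
`mul_finrank_le_finrank_mul`: `ρ * H1 j ≤ finrank (U * span K (range β))`, and
`span {v0 ^ j * q} * (U * span K (range β)) ≤ V1 ^ j * V2 ^ a ≤ V2 ^ (j + a)`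
(`Submodule.mul_le`, `Submodule.span_le`/`span_induction`, `Submodule.pow_le_pow_left`-type monotonicity `V1 ^ j ≤ V2 ^ j`).
-/
import Fermat.Agent.S26.G.Hilb.Func
import Fermat.Agent.S26.G.Ratio.Mem
import Fermat.Agent.S26.G.Ratio.Denom
import Fermat.Agent.S26.G.Ratio.Func
import Fermat.Agent.S26.G.Indep
import Fermat.Agent.S26.G.RelBasis

set_option autoImplicit false

universe u

namespace Fermat.Agent.S26.G

open Module IntermediateField

variable {K Ω : Type u} [Field K] [Field Ω] [Algebra K Ω]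

theorem relfinrank_mul_hilb_le (V1 V2 : Submodule K Ω) [FiniteDimensional K V2] (hle : V1 ≤ V2)
    {v0 : Ω} (hv0 : v0 ∈ V1) (h0 : v0 ≠ 0)
    (hfin : IntermediateField.relfinrank (ratioField V1) (ratioField V2) ≠ 0) :
    ∃ a : ℕ, ∀ j, IntermediateField.relfinrank (ratioField V1) (ratioField V2) * hilb V1 j ≤
      hilb V2 (j + a) := by
  obtain ⟨β, hβ2, hβli, -⟩ :=
    exists_relBasis (ratioField V1) (ratioField V2) (ratioField_mono hle) hfin
  obtain ⟨a, q, hq, hq0, hqβ⟩ := exists_common_denom V2 β hβ2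
  refine ⟨a, fun j => ?_⟩
  have hV1 : FiniteDimensional K V1 := Submodule.finiteDimensional_of_le hle
  have hV1j : FiniteDimensional K ↥(V1 ^ j) := finiteDimensional_pow V1 j
  have hV2j : FiniteDimensional K ↥(V2 ^ (j + a)) := finiteDimensional_pow V2 (j + a)
  have hc : (v0 ^ j)⁻¹ ≠ 0 := inv_ne_zero (pow_ne_zero j h0)
  have hUfin : FiniteDimensional K ↥(Submodule.span K {(v0 ^ j)⁻¹} * V1 ^ j) := by
    have : FiniteDimensional K ↥(Submodule.span K {(v0 ^ j)⁻¹}) :=
      FiniteDimensional.span_of_finite K (Set.finite_singleton _)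
    exact finiteDimensional_mul _ _
  have hUrank : finrank K ↥(Submodule.span K {(v0 ^ j)⁻¹} * V1 ^ j) = hilb V1 j :=
    finrank_span_singleton_mul hc (V1 ^ j)
  have hUE : ∀ u ∈ Submodule.span K {(v0 ^ j)⁻¹} * V1 ^ j, u ∈ ratioField V1 := by
    intro u hu
    obtain ⟨v, hv, rfl⟩ := mem_span_singleton_mul.1 hu
    rw [inv_mul_eq_div]
    exact div_pow_mem_ratioField hv0 j hv
  have h1 := mul_finrank_le_finrank_mul (ratioField V1) β hβli _ hUE
  rw [hUrank] at h1
  refine h1.trans ?_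
  have hd : v0 ^ j * q ≠ 0 := mul_ne_zero (pow_ne_zero j h0) hq0
  rw [← finrank_span_singleton_mul hd
    (Submodule.span K {(v0 ^ j)⁻¹} * V1 ^ j * Submodule.span K (Set.range β)), hilb_def]
  apply Submodule.finrank_mono
  intro x hx
  obtain ⟨y, hy, rfl⟩ := mem_span_singleton_mul.1 hx
  refine Submodule.mul_induction_on hy ?_ ?_
  · intro u hu b hb
    obtain ⟨v, hv, rfl⟩ := mem_span_singleton_mul.1 hu
    have h2 : v0 ^ j * q * ((v0 ^ j)⁻¹ * v * b) = v * (q * b) := by
      have := pow_ne_zero j h0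
      field_simp
    rw [h2, pow_add]
    refine Submodule.mul_mem_mul (pow_le_pow_left' hle j hv) ?_
    clear h2
    induction hb using Submodule.span_induction with
    | mem z hz =>
      obtain ⟨i, rfl⟩ := hz
      exact hqβ i
    | zero =>
      rw [mul_zero]
      exact zero_mem _
    | add z w _ _ hz hw =>
      rw [mul_add]
      exact add_mem hz hw
    | smul r z _ hz =>
      rw [mul_smul_comm]
      exact Submodule.smul_mem _ r hz
  · intro z w hz hw
    rw [mul_add]
    exact add_mem hz hw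

end Fermat.Agent.S26.G
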