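/-
S26 / block G (Theorem B, pure field theory, Mathlib only; architect helper187).
LEAF G-15.  `H2 j ≤ ρ H1 (j + b)`.
Proof.  `pow_add_eq_mul`: induction on `j`.  Let `β` be given by `exists_relBasis`, `B := span K (range β)`
(`finrank K B ≤ ρ`: `finrank_range_le_card`), `P := span {(v0 ^ m0)⁻¹} * V2 ^ m0`: its elements `p / v0 ^ m0` lie in
`ratioField V2` (`div_pow_mem_ratioField`), hence in `span E1 (range β)`.  `exists_mul_le_pow_mul V1 β P` gives `b`, `a ≠ 0`
with `span {a} * P ≤ V1 ^ b * B`.  With `q := a * (v0 ^ m0)⁻¹ ≠ 0`: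
`span {q} * V2 ^ (m0 + j) = V1 ^ j * (span {a} * P) ≤ V1 ^ (j + b) * B`, so
`H2 (m0 + j) ≤ H1 (j + b) * ρ` (`finrank_span_singleton_mul`, `Submodule.finrank_mono`, `finrank_mul_le`), and
`H2 j ≤ H2 (j + m0)` (`hilb_le_add`).
-/
import Fermat.Agent.S26.G.Hilb.Func
import Fermat.Agent.S26.G.Ratio.Mem
import Fermat.Agent.S26.G.Ratio.Func
import Fermat.Agent.S26.G.Gen
import Fermat.Agent.S26.G.RelBasis

set_option autoImplicit false

universe u

namespace Fermat.Agent.S26.G

open Module IntermediateField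

variable {K Ω : Type u} [Field K] [Field Ω] [Algebra K Ω]

theorem pow_add_eq_mul (V1 V2 : Submodule K Ω) (m0 : ℕ)
    (hst : ∀ m, m0 ≤ m → V2 ^ (m + 1) = V1 * V2 ^ m) (j : ℕ) :
    V2 ^ (m0 + j) = V1 ^ j * V2 ^ m0 := by
  induction j with
  | zero => rw [add_zero, pow_zero, one_mul]
  | succ j ih =>
    rw [← add_assoc, hst (m0 + j) (Nat.le_add_right _ _), ih, pow_succ', mul_assoc]

theorem hilb_le_relfinrank_mul (V1 V2 : Submodule K Ω) [FiniteDimensional K V2] (hle : V1 ≤ V2)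
    {v0 : Ω} (hv0 : v0 ∈ V1) (h0 : v0 ≠ 0) (m0 : ℕ)
    (hst : ∀ m, m0 ≤ m → V2 ^ (m + 1) = V1 * V2 ^ m)
    (hfin : IntermediateField.relfinrank (ratioField V1) (ratioField V2) ≠ 0) :
    ∃ b : ℕ, ∀ j, hilb V2 j ≤
      IntermediateField.relfinrank (ratioField V1) (ratioField V2) * hilb V1 (j + b) := by
  classical
  have hV1 : FiniteDimensional K V1 := Submodule.finiteDimensional_of_le hle
  obtain ⟨β, -, -, hβ⟩ := exists_relBasis (ratioField V1) (ratioField V2) (ratioField_mono hle) hfin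
  have hv02 : v0 ∈ V2 := hle hv0
  have hpow0 : v0 ^ m0 ≠ 0 := pow_ne_zero _ h0
  have hfpow : FiniteDimensional K ↥(V2 ^ m0) := finiteDimensional_pow V2 m0
  have hfs : FiniteDimensional K ↥(Submodule.span K ({(v0 ^ m0)⁻¹} : Set Ω)) := inferInstance
  have hfP : FiniteDimensional K ↥(Submodule.span K {(v0 ^ m0)⁻¹} * V2 ^ m0) :=
    finiteDimensional_mul _ _
  have hP : ∀ x ∈ Submodule.span K {(v0 ^ m0)⁻¹} * V2 ^ m0,
      x ∈ Submodule.span (ratioField V1) (Set.range β) := by
    intro x hx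
    obtain ⟨p, hp, rfl⟩ := mem_span_singleton_mul.1 hx
    apply hβ
    have := div_pow_mem_ratioField hv02 m0 hp
    rwa [div_eq_inv_mul] at this
  obtain ⟨b, a, -, ha0, hab⟩ := exists_mul_le_pow_mul V1 β _ hP
  have hfB : FiniteDimensional K ↥(Submodule.span K (Set.range β)) :=
    FiniteDimensional.span_of_finite K (Set.finite_range β)
  have hB : Module.finrank K ↥(Submodule.span K (Set.range β)) ≤
      IntermediateField.relfinrank (ratioField V1) (ratioField V2) := by
    have := finrank_range_le_card (R := K) β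
    simpa [Set.finrank] using this
  refine ⟨b, fun j => ?_⟩
  have hq0 : a * (v0 ^ m0)⁻¹ ≠ 0 := mul_ne_zero ha0 (inv_ne_zero hpow0)
  have hkey : Submodule.span K {a * (v0 ^ m0)⁻¹} * V2 ^ (m0 + j) ≤
      V1 ^ (j + b) * Submodule.span K (Set.range β) := by
    have e1 : Submodule.span K {a * (v0 ^ m0)⁻¹} * V2 ^ (m0 + j) =
        V1 ^ j * (Submodule.span K {a} * (Submodule.span K {(v0 ^ m0)⁻¹} * V2 ^ m0)) := by
      rw [pow_add_eq_mul V1 V2 m0 hst j, ← Set.singleton_mul_singleton, ← Submodule.span_mul_span]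
      ac_rfl
    rw [e1, pow_add, mul_assoc]
    exact mul_le_mul' le_rfl hab
  have hfj : FiniteDimensional K ↥(V1 ^ (j + b)) := finiteDimensional_pow V1 _
  have hfR : FiniteDimensional K ↥(V1 ^ (j + b) * Submodule.span K (Set.range β)) :=
    finiteDimensional_mul _ _
  calc hilb V2 j ≤ hilb V2 (j + m0) := hilb_le_add V2 hv02 h0 j m0
    _ = Module.finrank K ↥(V2 ^ (m0 + j)) := by rw [hilb_def, add_comm]
    _ = Module.finrank K ↥(Submodule.span K {a * (v0 ^ m0)⁻¹} * V2 ^ (m0 + j)) :=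
        (finrank_span_singleton_mul hq0 _).symm
    _ ≤ Module.finrank K ↥(V1 ^ (j + b) * Submodule.span K (Set.range β)) :=
        Submodule.finrank_mono hkey
    _ ≤ Module.finrank K ↥(V1 ^ (j + b)) * Module.finrank K ↥(Submodule.span K (Set.range β)) :=
        finrank_mul_le _ _
    _ ≤ hilb V1 (j + b) * IntermediateField.relfinrank (ratioField V1) (ratioField V2) :=
        Nat.mul_le_mul_left _ hB
    _ = _ := mul_comm _ _

end Fermat.Agent.S26.G
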