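/-
S26 / block G (Theorem B, pure field theory, Mathlib only; architect helper187).
G3 (assembly, proved).
-/
import Fermat.Agent.S26.G.Cmp.Finite
import Fermat.Agent.S26.G.Cmp.Upper
import Fermat.Agent.S26.G.Cmp.Lower

set_option autoImplicit false

universe u

namespace Fermat.Agent.S26.G

open Module IntermediateField

variable {K Ω : Type u} [Field K] [Field Ω] [Algebra K Ω]

/-- **G3.** -/
theorem compare (V1 V2 : Submodule K Ω) [FiniteDimensional K V2] (hle : V1 ≤ V2)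
    {v0 : Ω} (hv0 : v0 ∈ V1) (h0 : v0 ≠ 0) (m0 : ℕ)
    (hst : ∀ m, m0 ≤ m → V2 ^ (m + 1) = V1 * V2 ^ m) :
    IntermediateField.relfinrank (ratioField V1) (ratioField V2) ≠ 0 ∧
    (∃ a : ℕ, ∀ j, IntermediateField.relfinrank (ratioField V1) (ratioField V2) * hilb V1 j ≤
      hilb V2 (j + a)) ∧
    ∃ b : ℕ, ∀ j, hilb V2 j ≤
      IntermediateField.relfinrank (ratioField V1) (ratioField V2) * hilb V1 (j + b) := by
  have hfin := relfinrank_ratioField_ne_zero V1 V2 hle hv0 h0 m0 (hst m0 le_rfl)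
  exact ⟨hfin, relfinrank_mul_hilb_le V1 V2 hle hv0 h0 hfin,
    hilb_le_relfinrank_mul V1 V2 hle hv0 h0 m0 hst hfin⟩

end Fermat.Agent.S26.G
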