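/-
S26 / block G (Theorem B, pure field theory, Mathlib only; architect helper187).
LEAF G-13 (general field theory).  An extension generated by finitely many integral elements has nonzero `relfinrank`.
Proof.  `T := IntermediateField.adjoin E1 S` is finite dimensional over `E1`
(`IntermediateField.finiteDimensional_adjoin`, `S` finite), `extendScalars hle ≤ T`
(`x ∈ E2 → x ∈ E1 ⊔ adjoin K S ≤ T.restrictScalars K`: `sup_le`, `adjoin_le_iff`, `algebraMap_mem`, `subset_adjoin`),
so `extendScalars hle` is finite dimensional over `E1` and `finrank_pos`;
`IntermediateField.relfinrank_eq_finrank_of_le`.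
-/
import Fermat.Agent.S26.G.Basic

set_option autoImplicit false

universe u

namespace Fermat.Agent.S26.G

open Module IntermediateField

variable {K Ω : Type u} [Field K] [Field Ω] [Algebra K Ω]

theorem relfinrank_ne_zero_of_isIntegral (E1 E2 : IntermediateField K Ω) (hle : E1 ≤ E2)
    (S : Set Ω) (hS : S.Finite) (hint : ∀ x ∈ S, IsIntegral E1 x)
    (hE2 : E2 ≤ E1 ⊔ IntermediateField.adjoin K S) :
    IntermediateField.relfinrank E1 E2 ≠ 0 := by
  classical
  have : Finite S := hS
  set T : IntermediateField E1 Ω := IntermediateField.adjoin E1 S with hT
  have hfin : FiniteDimensional E1 T := IntermediateField.finiteDimensional_adjoin hint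
  have hsub : extendScalars hle ≤ T := by
    intro x hx
    have hx2 : x ∈ E2 := hx
    have hx3 : x ∈ E1 ⊔ IntermediateField.adjoin K S := hE2 hx2
    have hle2 : E1 ⊔ IntermediateField.adjoin K S ≤ T.restrictScalars K := by
      refine sup_le ?_ ?_
      · intro y hy
        exact T.algebraMap_mem (⟨y, hy⟩ : E1)
      · rw [IntermediateField.adjoin_le_iff]
        intro y hy
        exact IntermediateField.subset_adjoin E1 S hy
    exact hle2 hx3
  have hfin2 : FiniteDimensional E1 (extendScalars hle) := by
    have hinj : Function.Injective (IntermediateField.inclusion hsub) :=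
      (IntermediateField.inclusion hsub).toRingHom.injective
    exact FiniteDimensional.of_injective (IntermediateField.inclusion hsub).toLinearMap hinj
  rw [IntermediateField.relfinrank_eq_finrank_of_le hle]
  exact (Module.finrank_pos (R := E1) (M := extendScalars hle)).ne'

end Fermat.Agent.S26.G
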